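/-
Row 37 (S43), block L0 (chief helper165).  LEVEL `Γ₀(M q)`, POINTWISE FACTS, generic exponent `n` (`q ∤ n`).

Everything is in the language of project C1 (`GAL.E.W (M * q) n`, `C1.ALData M q`, `C1.IsKinf`, `C1.IsTor`) and is
derived from LANDED results (`C1.isKinf_frob`, `C1.isKinf_rho_sub`, `C1.isTor_of_isKinf`, `S34 … nodalTarget`).

* `IsKinf.rho_dec`, `isKinf_rho_dec_iff` : `K_∞` is stable under the decomposition group of `A` (any level);
* `isKinf_wW_of_nmW`  : `x ∈ K_∞`, `α_* x = 0`  ⟹  `w x ∈ K_∞`                       ("(R1)");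
* `isTor_of_isKinf_nmW` : `x ∈ K_∞`, `α_* x = 0`  ⟹  `x` toric;
* `rho_of_isTor`      : inertia is trivial on the toric part;
* `rho_rho_of_isTor`  : `φ² = q²` on the toric part;
* `isTor_rho_sub`     : `(τ - 1) x` is toric, for every `x` and every `τ` in the inertia group;
* `rho_sub_rho_sub`   : `(τ' - 1)(τ - 1) = 0`.
-/
import Fermat.Agent.C1.Main
import Fermat.Agent.C1.Target
import Fermat.Agent.C1.HeckeStable
import Fermat.Agent.S34.Nodal.Inst.Top.Close

set_option autoImplicit false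

noncomputable section

namespace Fermat.Agent.S43.L0

open ModularCurve AlgebraicCurve Fermat.Agent.S24 Fermat.Agent.S24.B Fermat.Agent.GAL
  Fermat.Agent.GAL.E Fermat.Agent.C1

/-! ### `K_∞` and the decomposition group -/

theorem cong1_galF_dec {A : ValuationSubring Kbar} {N : ℕ} (g : A.decompositionSubgroup ℚ)
    {u : FN N} (hu : Cong1 A N u) : Cong1 A N (galF N (g : GQ) u) := by
  obtain ⟨P, Q, hP, hQ, h1, h2, rfl⟩ := hu
  have hP' : incl A (coeffMap (decompHom A g) P) ∈ modularFunctionFieldBar N := by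
    rw [incl_decompHom]
    exact (galF N (g : GQ) ⟨incl A P, hP⟩).2
  have hQ' : incl A (coeffMap (decompHom A g) Q) ∈ modularFunctionFieldBar N := by
    rw [incl_decompHom]
    exact (galF N (g : GQ) ⟨incl A Q, hQ⟩).2
  refine ⟨coeffMap (decompHom A g) P, coeffMap (decompHom A g) Q, hP', hQ', ?_, ?_, ?_⟩
  · ext k
    rw [coeff_red_decompHom, coeff_red_decompHom]
    have h3 := congrArg (fun s => HahnSeries.coeff s k) h1
    simp only [coeffMap_coeff] at h3
    exact congrArg (g • ·) h3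
  · intro h0
    apply h2
    ext k
    have h3 : (red A (coeffMap (decompHom A g) Q)).coeff k = 0 := by
      rw [h0, HahnSeries.coeff_zero]
    rw [coeff_red_decompHom, smul_eq_zero_iff_eq] at h3
    rw [HahnSeries.coeff_zero, ← h3]
    exact coeffMap_coeff _ _ _
  · rw [map_div₀]
    have e : ∀ (R : LaurentSeries A) (hR : incl A R ∈ modularFunctionFieldBar N)
        (hR' : incl A (coeffMap (decompHom A g) R) ∈ modularFunctionFieldBar N),
        galF N (g : GQ) ⟨incl A R, hR⟩ = ⟨incl A (coeffMap (decompHom A g) R), hR'⟩ := by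
      intro R hR hR'
      apply Subtype.ext
      rw [coe_galF]
      exact (incl_decompHom A g R).symm
    rw [e P hP hP', e Q hQ hQ']

theorem IsKinf.rho_dec {A : ValuationSubring Kbar} {N n : ℕ} {s : GQ}
    (hs : s ∈ A.decompositionSubgroup ℚ) {x : W N n} (hx : IsKinf A x) :
    IsKinf A (rho N n s x) := by
  obtain ⟨u, rfl, hu⟩ := hx
  exact ⟨_, (rho_cls s u).symm, cong1_galF_dec ⟨s, hs⟩ hu⟩

theorem rho_inv_rho {N n : ℕ} (s : GQ) (x : W N n) : rho N n s⁻¹ (rho N n s x) = x := by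
  have h : rho N n s⁻¹ * rho N n s = 1 := by rw [← map_mul, inv_mul_cancel, map_one]
  exact DFunLike.congr_fun h x

theorem isKinf_rho_dec_iff {A : ValuationSubring Kbar} {N n : ℕ} {s : GQ}
    (hs : s ∈ A.decompositionSubgroup ℚ) {x : W N n} :
    IsKinf A (rho N n s x) ↔ IsKinf A x := by
  refine ⟨fun h => ?_, fun h => IsKinf.rho_dec hs h⟩
  have := IsKinf.rho_dec ((A.decompositionSubgroup ℚ).inv_mem hs) h
  rwa [rho_inv_rho] at this

/-! ### level `M q` -/

variable {M q : ℕ} [NeZero M] [NeZero q] (D : ALData M q) {A : ValuationSubring Kbar} {n : ℕ}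

/-- **(R1)**: on the kernel of `α_*`, `K_∞` is stable under `w`. -/
theorem isKinf_wW_of_nmW [NeZero n] (hq : q.Prime) (hA : A.LiesOverPrime q) {φ : GQ}
    (hφ : A.IsFrobeniusAt φ q) {x : W (M * q) n} (hx : IsKinf A x) (h0 : D.nmW n x = 0) :
    IsKinf A (D.wW n x) := by
  have h1 := isKinf_frob D hq hA φ hφ x
  rw [h0, map_zero] at h1
  have h2 : rho (M * q) n φ (D.wW n x) = -((0 - x - rho (M * q) n φ (D.wW n x)) + x) := by abel
  rw [← isKinf_rho_dec_iff hφ.mem_decompositionSubgroup, h2]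
  exact (h1.add hx).neg

theorem isTor_of_isKinf_nmW [NeZero n] (hq : q.Prime) (hA : A.LiesOverPrime q) {φ : GQ}
    (hφ : A.IsFrobeniusAt φ q) {x : W (M * q) n} (hx : IsKinf A x) (h0 : D.nmW n x = 0) :
    IsTor D A x :=
  isTor_of_isKinf D hq hA hx (isKinf_wW_of_nmW D hq hA hφ hx h0)

theorem IsTor.isKinf {x : W (M * q) n} (hx : IsTor D A x) : IsKinf A x := by
  obtain ⟨u, rfl, hu, -⟩ := hx
  exact ⟨u, rfl, hu⟩

theorem IsTor.isKinf_wW {x : W (M * q) n} (hx : IsTor D A x) : IsKinf A (D.wW n x) := by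
  obtain ⟨u, rfl, -, hu⟩ := hx
  exact ⟨_, rfl, hu⟩

theorem isTor_iff [NeZero n] (hq : q.Prime) (hA : A.LiesOverPrime q) {x : W (M * q) n} :
    IsTor D A x ↔ IsKinf A x ∧ IsKinf A (D.wW n x) :=
  ⟨fun h => ⟨IsTor.isKinf D h, IsTor.isKinf_wW D h⟩, fun h => isTor_of_isKinf D hq hA h.1 h.2⟩

/-- the two statements of the nodal core, with `d = 1` -/
theorem nod (hq : q.Prime) (hqM : ¬ q ∣ M) (hA : A.LiesOverPrime q) (hn : 0 < n) (hqn : ¬ q ∣ n) :
    NOD1 D A n 1 ∧ NOD2 D A n 1 :=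
  nod_of_target Fermat.Agent.S34.Nodal.Inst.Top.nodalTarget hq hqM D A hA n hn hqn

/-- **Inertia is trivial on the toric part.** -/
theorem rho_of_isTor (hq : q.Prime) (hqM : ¬ q ∣ M) (hA : A.LiesOverPrime q) (hn : 0 < n)
    (hqn : ¬ q ∣ n) {τ : GQ} (hτ : τ ∈ A.inertiaSubgroupIn ℚ) {x : W (M * q) n}
    (hx : IsTor D A x) : rho (M * q) n τ x = x := by
  have h := smul_rho_sub_of_isTor D (nod D hq hqM hA hn hqn).1 τ hτ hx
  rw [one_nsmul] at h
  exact sub_eq_zero.1 h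

/-- **`φ² = q²` on the toric part.** -/
theorem rho_rho_of_isTor (hq : q.Prime) (hqM : ¬ q ∣ M) (hA : A.LiesOverPrime q) (hn : 0 < n)
    (hqn : ¬ q ∣ n) {φ : GQ} (hφ : A.IsFrobeniusAt φ q) {x : W (M * q) n}
    (hx : IsTor D A x) : rho (M * q) n φ (rho (M * q) n φ x) = (q ^ 2) • x := by
  have h := smul_rho_rho_sub_of_isTor D (nod D hq hqM hA hn hqn).2 φ hφ hx
  rw [one_nsmul] at h
  exact sub_eq_zero.1 h

/-- `(τ - 1) x` is toric. -/
theorem isTor_rho_sub [NeZero n] (hq : q.Prime) (hA : A.LiesOverPrime q) {τ : GQ}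
    (hτ : τ ∈ A.inertiaSubgroupIn ℚ) (x : W (M * q) n) :
    IsTor D A (rho (M * q) n τ x - x) := by
  apply isTor_of_isKinf D hq hA (isKinf_rho_sub hq hA τ hτ x)
  have e : D.wW n (rho (M * q) n τ x - x) = rho (M * q) n τ (D.wW n x) - D.wW n x := by
    have h1 := map_sub (D.wW n) (rho (M * q) n τ x) x
    rw [D.wW_rho n hq] at h1
    exact h1
  rw [e]
  exact isKinf_rho_sub hq hA τ hτ _

include D in
/-- `(τ' - 1)(τ - 1) = 0`. -/
theorem rho_sub_rho_sub [NeZero n] (hq : q.Prime) (hqM : ¬ q ∣ M) (hA : A.LiesOverPrime q)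
    (hqn : ¬ q ∣ n) {τ τ' : GQ} (hτ : τ ∈ A.inertiaSubgroupIn ℚ)
    (hτ' : τ' ∈ A.inertiaSubgroupIn ℚ) (x : W (M * q) n) :
    rho (M * q) n τ' (rho (M * q) n τ x - x) = rho (M * q) n τ x - x :=
  rho_of_isTor D hq hqM hA (NeZero.pos n) hqn hτ' (isTor_rho_sub D hq hA hτ x)

/-! ### the toric part is a subgroup, stable under `w`, the decomposition group, `T_ℓ` -/

theorem IsTor.zero [NeZero n] (hq : q.Prime) (hA : A.LiesOverPrime q) :
    IsTor D A (0 : W (M * q) n) :=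
  (isTor_iff D hq hA).2 ⟨IsKinf.zero, by rw [map_zero]; exact IsKinf.zero⟩

theorem IsTor.add [NeZero n] (hq : q.Prime) (hA : A.LiesOverPrime q) {x y : W (M * q) n}
    (hx : IsTor D A x) (hy : IsTor D A y) : IsTor D A (x + y) := by
  rw [isTor_iff D hq hA] at hx hy ⊢
  have e : D.wW n (x + y) = D.wW n x + D.wW n y := map_add _ _ _
  exact ⟨hx.1.add hy.1, by rw [e]; exact hx.2.add hy.2⟩

theorem IsTor.neg [NeZero n] (hq : q.Prime) (hA : A.LiesOverPrime q) {x : W (M * q) n}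
    (hx : IsTor D A x) : IsTor D A (-x) := by
  rw [isTor_iff D hq hA] at hx ⊢
  have e : D.wW n (-x) = -D.wW n x := map_neg (D.wW n) x
  exact ⟨hx.1.neg, by rw [e]; exact hx.2.neg⟩

theorem IsTor.wW [NeZero n] (hq : q.Prime) (hA : A.LiesOverPrime q) {x : W (M * q) n}
    (hx : IsTor D A x) : IsTor D A (D.wW n x) := by
  rw [isTor_iff D hq hA] at hx ⊢
  exact ⟨hx.2, by rw [D.wW_wW n hq]; exact hx.1⟩

theorem IsTor.rho_dec [NeZero n] (hq : q.Prime) (hA : A.LiesOverPrime q) {s : GQ}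
    (hs : s ∈ A.decompositionSubgroup ℚ) {x : W (M * q) n} (hx : IsTor D A x) :
    IsTor D A (rho (M * q) n s x) := by
  rw [isTor_iff D hq hA] at hx ⊢
  exact ⟨IsKinf.rho_dec hs hx.1, by rw [D.wW_rho n hq]; exact IsKinf.rho_dec hs hx.2⟩

/-- The toric part, as a subgroup. -/
def tor [NeZero n] (hq : q.Prime) (hA : A.LiesOverPrime q) : AddSubgroup (W (M * q) n) where
  carrier := {x | IsTor D A x}
  zero_mem' := IsTor.zero D hq hA
  add_mem' := fun hx hy => IsTor.add D hq hA hx hy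
  neg_mem' := fun hx => IsTor.neg D hq hA hx

theorem mem_tor [NeZero n] (hq : q.Prime) (hA : A.LiesOverPrime q) {x : W (M * q) n} :
    x ∈ tor D (n := n) hq hA ↔ IsTor D A x := Iff.rfl

end Fermat.Agent.S43.L0

end
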