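/-
Row 37 (S43), block L0 (helper23).  THE KEY LEMMA FOR THE CONCRETE ATKIN-LEHNER INVOLUTION `Ops.w0 hc` (helper297) OF LEVEL
`Γ₀(q M)`:

* `coe_w0_of_coe`     : `w0 hc` maps `f(Q)` to `f(Q^q)` (`f` of level `M`);
* `coe_w0_of_qExpand` : `w0 hc` maps `f(Q^q)` to `f(Q)`;
* `key_w0`   : `x ∈ K_∞`, `w0 x ∈ K_∞`, `τ ∈ I_A` ⟹ `ρ(τ) x = x`   on `W1 (modularFunctionFieldFull (q * M)) n`;
* `key_U_w0` : the same with `w0 x = - U x`, `U K_∞ ⊆ K_∞`.
-/
import Fermat.Agent.S43.L0.Key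
import Fermat.Agent.S43.Ops.W.Zero
import Fermat.Agent.S43.Ops.New.Main

set_option autoImplicit false
set_option linter.unusedSectionVars false

noncomputable section

namespace Fermat.Agent.S43.L0

open ModularCurve UpperHalfPlane AlgebraicCurve CongruenceSubgroup
open Fermat.Agent.S24 Fermat.Agent.S24.B Fermat.Agent.GAL Fermat.Agent.GAL.Mult Fermat.Agent.S48.BB
  Fermat.Agent.S48.BB.U Fermat.Agent.S48.BB.T Fermat.Agent.S43.Ops.Rel
open Fermat.Agent.GAL.E (GQ)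
open scoped MatrixGroups

/-- shortcut instance (the generic search times out) -/
local instance instDMAKeyW0 : DistribMulAction GL(2, ℝ)⁺ MM := instActionMM.toDistribMulAction

/-- shortcut instance (the generic search times out) -/
local instance instMAKeyW0 : MulAction GL(2, ℝ)⁺ MM := instDMAKeyW0.toMulAction

/-- shortcut instance (the generic search times out) -/
local instance instSAKeyW0 : SemigroupAction GL(2, ℝ)⁺ MM := instMAKeyW0.toSemigroupAction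

/-- the function with `q`-expansion `f(Q^q)` is `f ∘ (q 0; 0 1)`. -/
theorem real_of_qExpand {F₀ F₀' : IntermediateField ℚ (LaurentSeries ℚ)} {H H' : Subgroup SL(2, ℤ)}
    {N N' : ℕ} [NeZero N] [NeZero N'] (hL : IsLvl F₀ H N) (hT : ModularGroup.T ∈ H)
    (hL' : IsLvl F₀' H' N') (hT' : ModularGroup.T ∈ H') {q : ℕ} [NeZero q] (f : FB F₀) (z : FB F₀')
    (hz : (z : LaurentSeries Kbar) = qExpand Kbar q (f : LaurentSeries Kbar)) :
    real hL' z = (M.gD q)⁻¹ • real hL f := by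
  have h1 := M.isNice_real hL hT (1 : FB F₀)
  have h := h1.eq_smul_mul_prod (ℓ := q) (M.isNice_real hL hT f) (M.isNice_real hL' hT' z) (by
    rw [hz, M.Q2, ModularCurve.qExpand_qExpand]
    simp)
  rw [h, map_one]
  simp

variable {q M : ℕ} [NeZero q] [NeZero M]

/-- `wMat = δ (q 0; 0 1)`, `δ = (x, y; M, q) ∈ Γ₀(M)`. -/
theorem eqv_wG_gD (hc : Nat.Coprime q M) : Eqv (Gamma0 M) (Ops.wG hc) (S48.BB.M.gD q) := by
  have hxy := Ops.wxy hc
  let δ : SL(2, ℤ) := ⟨!![Ops.wx q M, Ops.wy q M; (M : ℤ), (q : ℤ)], by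
    rw [Matrix.det_fin_two_of]
    linear_combination hxy⟩
  have hδ : δ ∈ Gamma0 M := by
    rw [Gamma0_mem]
    show (((M : ℤ) : ℤ) : ZMod M) = 0
    simp
  refine Eqv.of_val_eq hδ (c := 1) one_ne_zero ?_
  rw [one_smul]
  show (((Ops.glI (Ops.wMat q M) (Ops.det_wMat_pos hc) : GL(2, ℝ)⁺) : GL (Fin 2) ℝ) :
      Matrix (Fin 2) (Fin 2) ℝ) =
    (((sl δ : GL(2, ℝ)⁺) : GL (Fin 2) ℝ) : Matrix (Fin 2) (Fin 2) ℝ) *
      (((S48.BB.M.gD q : GL(2, ℝ)⁺) : GL (Fin 2) ℝ) : Matrix (Fin 2) (Fin 2) ℝ)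
  rw [Ops.coe_glI, Ops.coe_sl_val]
  show _ = _ * ((ModularForm.heckeDiagMatrix q : GL (Fin 2) ℝ) : Matrix (Fin 2) (Fin 2) ℝ)
  rw [ModularForm.val_heckeDiagMatrix (NeZero.ne q)]
  ext i j
  fin_cases i <;> fin_cases j <;> simp [Ops.wMat, δ, Matrix.mul_apply, Fin.sum_univ_two, mul_comm]

theorem exists_coe_eq_qExpand {N : ℕ} (hN : N = M * q) (f : FN M) :
    ∃ z : FB (modularFunctionFieldFull N),
      (z : LaurentSeries Kbar) = qExpand Kbar q (f : LaurentSeries Kbar) := by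
  subst hN
  exact ⟨heckeBetaBar Kbar M q f, coe_heckeBetaBar M q f⟩

/-- `w0 hc` maps `f(Q)` to `f(Q^q)`. -/
theorem coe_w0_of_coe (hc : Nat.Coprime q M) (f : FN M) (y : FB (modularFunctionFieldFull (q * M)))
    (hy : (y : LaurentSeries Kbar) = (f : LaurentSeries Kbar)) :
    ((Ops.w0 hc y : FB (modularFunctionFieldFull (q * M))) : LaurentSeries Kbar) =
      qExpand Kbar q (f : LaurentSeries Kbar) := by
  obtain ⟨z, hz⟩ := exists_coe_eq_qExpand (mul_comm q M) f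
  have hy' : y = alphaB (Ops.New.full_le q M) f := Subtype.ext (by rw [hy, coe_alphaB])
  have h : Ops.w0 hc y = z := by
    apply real_injective (Ops.hL0 q M)
    rw [Ops.real_w0, hy', Ops.New.real_alphaB (Ops.New.isLvl_full_up q M) (Ops.hL0 q M),
      (eqv_wG_gD hc).smul_real (Ops.New.isLvl_full_up q M),
      real_of_qExpand (Ops.New.isLvl_full_up q M) NiceFrac.T_mem_Gamma0 (Ops.hL0 q M)
        NiceFrac.T_mem_Gamma0 f z hz]
  rw [h, hz]

/-- `w0 hc` maps `f(Q^q)` to `f(Q)`. -/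
theorem coe_w0_of_qExpand (hc : Nat.Coprime q M) (f : FN M)
    (y : FB (modularFunctionFieldFull (q * M)))
    (hy : (y : LaurentSeries Kbar) = qExpand Kbar q (f : LaurentSeries Kbar)) :
    ((Ops.w0 hc y : FB (modularFunctionFieldFull (q * M))) : LaurentSeries Kbar) =
      (f : LaurentSeries Kbar) := by
  have h1 := coe_w0_of_coe hc f (alphaB (Ops.New.full_le q M) f) (coe_alphaB _ _)
  have h2 : y = Ops.w0 hc (alphaB (Ops.New.full_le q M) f) := Subtype.ext (by rw [hy, h1])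
  rw [h2, Ops.w0_w0, coe_alphaB]

/-- **The key lemma for `Ops.w0 hc`.** -/
theorem key_w0 (hq : q.Prime) (hc : Nat.Coprime q M)
    {A : ValuationSubring Kbar} (hA : A.LiesOverPrime q) {n : ℕ} (hn : 0 < n) (hqn : ¬ q ∣ n)
    {x : E.W1 (modularFunctionFieldFull (q * M)) n} (hx : Triv.IsKinf A x)
    (hwx : Triv.IsKinf A (E.autW (Ops.w0 hc) n x))
    (τ : GQ) (hτ : τ ∈ A.inertiaSubgroupIn ℚ) :
    E.rho (modularFunctionFieldFull (q * M)) n τ x = x :=
  key (mul_comm q M) hq ((Nat.Prime.coprime_iff_not_dvd hq).1 hc) (Ops.w0 hc) (coe_w0_of_coe hc)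
    (coe_w0_of_qExpand hc) hA hn hqn hx hwx τ hτ

/-- Consequence: if `w0 x = - U x` and `U` preserves `K_∞`, then `x ∈ K_∞` is fixed by inertia. -/
theorem key_U_w0 (hq : q.Prime) (hc : Nat.Coprime q M)
    {A : ValuationSubring Kbar} (hA : A.LiesOverPrime q) {n : ℕ} (hn : 0 < n) (hqn : ¬ q ∣ n)
    (U : AddMonoid.End (E.W1 (modularFunctionFieldFull (q * M)) n))
    (hU : ∀ y, Triv.IsKinf A y → Triv.IsKinf A (U y))
    {x : E.W1 (modularFunctionFieldFull (q * M)) n} (hx : Triv.IsKinf A x)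
    (hwU : E.autW (Ops.w0 hc) n x = - U x)
    (τ : GQ) (hτ : τ ∈ A.inertiaSubgroupIn ℚ) :
    E.rho (modularFunctionFieldFull (q * M)) n τ x = x :=
  key_w0 hq hc hA hn hqn hx (by rw [hwU]; exact (hU x hx).neg) τ hτ

end Fermat.Agent.S43.L0

end
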