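/-
Row 37 (S43), block L0 (helper253).  THE ABSTRACT LEVEL-`Γ₀(M q)` PACKAGE.  Mathlib only.

`X = W1 F0 n`, `L ≤ X` the `m`-part (finite), `Ki = K_∞^0`, `U = U_q`, `w = w_q`, `wi = w_q⁻¹`,
`S = ρ(τ)` (`τ` in the inertia group at `q`), `F = ρ(φ)` (`φ` a Frobenius at `q`).

INPUT
* `new` : `U = - w` on `L`                                   (OPS-N + no `m`-part at level `M`);
* `key` : `x ∈ Ki`, `w x ∈ Ki` ⟹ `S x = x`                  (`L0.key`, nodal core);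
* `Ki_U`: `U Ki ⊆ Ki`; `t2 : (F - U) X ⊆ Ki`; `t4 : w ((F - wi U w) X) ⊆ Ki`   (TRIV at level `Γ₀`).
OUTPUT (the level-`Γ₀` fields of `T2.Data` / `Glue.Pkg`)
* `fix_of_mem`   : `x ∈ L ∩ Ki ⟹ S x = x`                    (`prK`, `γ`);
* `fix_of_w_mem` : `x ∈ L`, `w x ∈ Ki ⟹ S x = x`             (`prK'`, `γ'`);
* `Us_eq`        : `wi (U (w x)) = U x` on `L`               (`pr_Ut`);
* `fix_frob`     : `S (F x - U x) = F x - U x` on `L`        (`L0`);
* `U_surj`       : `U` is onto on `L`                        (`U₀_surj`).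
-/
import Mathlib

set_option autoImplicit false

namespace Fermat.Agent.S43.L0

/-- The abstract input. -/
structure Abs {X : Type*} [AddCommGroup X] (L Ki : AddSubgroup X) (U w wi : X →+ X) : Prop where
  fin : Finite L
  L_w : ∀ x ∈ L, w x ∈ L
  wi_w : ∀ x, wi (w x) = x
  new : ∀ x ∈ L, U x = - w x
  Ki_U : ∀ x ∈ Ki, U x ∈ Ki

namespace Abs

variable {X : Type*} [AddCommGroup X] {L Ki : AddSubgroup X} {U w wi : X →+ X}

theorem w_inj (H : Abs L Ki U w wi) : Function.Injective w := fun x y h => by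
  rw [← H.wi_w x, ← H.wi_w y, h]

theorem L_U (H : Abs L Ki U w wi) {x : X} (hx : x ∈ L) : U x ∈ L := by
  rw [H.new x hx]
  exact L.neg_mem (H.L_w x hx)

theorem w_mem (H : Abs L Ki U w wi) {x : X} (hx : x ∈ L) (hK : x ∈ Ki) : w x ∈ Ki := by
  have h := Ki.neg_mem (H.Ki_U x hK)
  rwa [H.new x hx, neg_neg] at h

/-- an injective endomorphism of a finite subgroup is onto -/
theorem exists_of_stable {X : Type*} [AddCommGroup X] (B : AddSubgroup X) [Finite B] (f : X →+ X)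
    (hB : ∀ x ∈ B, f x ∈ B) (hinj : ∀ x ∈ B, f x = 0 → x = 0) {y : X} (hy : y ∈ B) :
    ∃ x ∈ B, f x = y := by
  let g : B → B := fun x => ⟨f x, hB x x.2⟩
  have hg : Function.Injective g := by
    intro a b hab
    have h1 : f (a : X) = f (b : X) := congrArg Subtype.val hab
    have h2 : ((a : X) - b) = 0 := hinj _ (B.sub_mem a.2 b.2) (by rw [map_sub, h1, sub_self])
    exact Subtype.ext (sub_eq_zero.1 h2)
  obtain ⟨x, hx⟩ := Finite.surjective_of_injective hg ⟨y, hy⟩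
  exact ⟨x, x.2, congrArg Subtype.val hx⟩

/-- `U` is onto on `L`. -/
theorem U_surj (H : Abs L Ki U w wi) {y : X} (hy : y ∈ L) : ∃ x ∈ L, U x = y := by
  have := H.fin
  refine exists_of_stable L U (fun x hx => H.L_U hx) (fun x hx h0 => ?_) hy
  rw [H.new x hx, neg_eq_zero] at h0
  exact H.w_inj (by rw [h0, map_zero])

/-- `w` is onto on `L`. -/
theorem w_surj (H : Abs L Ki U w wi) {y : X} (hy : y ∈ L) : ∃ x ∈ L, w x = y := by
  have := H.fin
  exact exists_of_stable L w H.L_w (fun x _ h0 => H.w_inj (by rw [h0, map_zero])) hy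

theorem L_wi (H : Abs L Ki U w wi) {y : X} (hy : y ∈ L) : wi y ∈ L := by
  obtain ⟨x, hx, rfl⟩ := H.w_surj hy
  rwa [H.wi_w]

/-- `K_0 ∩ L ⊆ K_∞`. -/
theorem mem_of_w_mem (H : Abs L Ki U w wi) {x : X} (hx : x ∈ L) (hK : w x ∈ Ki) : x ∈ Ki := by
  have hfin := H.fin
  have : Finite (L ⊓ Ki : AddSubgroup X) :=
    Finite.of_injective (fun z : (L ⊓ Ki : AddSubgroup X) => (⟨z.1, z.2.1⟩ : L))
      (fun a b h => Subtype.ext (congrArg (fun t : L => (t : X)) h))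
  obtain ⟨z, hz, hzx⟩ := exists_of_stable (L ⊓ Ki) w
    (fun t ht => ⟨H.L_w t ht.1, H.w_mem ht.1 ht.2⟩)
    (fun t _ h0 => H.w_inj (by rw [h0, map_zero])) (y := w x) ⟨H.L_w x hx, hK⟩
  rw [← H.w_inj hzx]
  exact hz.2

/-- `w⁻¹ U w = U` on `L`. -/
theorem Us_eq (H : Abs L Ki U w wi) {x : X} (hx : x ∈ L) : wi (U (w x)) = U x := by
  rw [H.new (w x) (H.L_w x hx), map_neg, H.wi_w, H.new x hx]

variable {S F : X →+ X}

/-- `K_∞ ∩ L` is fixed by inertia. -/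
theorem fix_of_mem (H : Abs L Ki U w wi) (key : ∀ x, x ∈ Ki → w x ∈ Ki → S x = x) {x : X}
    (hx : x ∈ L) (hK : x ∈ Ki) : S x = x := key x hK (H.w_mem hx hK)

/-- `K_0 ∩ L` is fixed by inertia. -/
theorem fix_of_w_mem (H : Abs L Ki U w wi) (key : ∀ x, x ∈ Ki → w x ∈ Ki → S x = x) {x : X}
    (hx : x ∈ L) (hK : w x ∈ Ki) : S x = x := key x (H.mem_of_w_mem hx hK) hK

/-- `(φ - U_q) L` is fixed by inertia. -/
theorem fix_frob (H : Abs L Ki U w wi) (key : ∀ x, x ∈ Ki → w x ∈ Ki → S x = x)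
    (t2 : ∀ x, F x - U x ∈ Ki) (t4 : ∀ x, w (F x - wi (U (w x))) ∈ Ki) {x : X} (hx : x ∈ L) :
    S (F x - U x) = F x - U x := by
  refine key _ (t2 x) ?_
  have h := t4 x
  rwa [H.Us_eq hx] at h

/-- (C4) ⟹ (γ): if `η y ∈ Ki` for an operator `η` which is injective on `L` and preserves `L` and `Ki`,
then `y ∈ Ki`. -/
theorem mem_of_eta_mem (H : Abs L Ki U w wi) (η : X →+ X) (hL : ∀ x ∈ L, η x ∈ L)
    (hK : ∀ x ∈ Ki, η x ∈ Ki) (hinj : ∀ x ∈ L, η x = 0 → x = 0) {y : X} (hy : y ∈ L)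
    (h : η y ∈ Ki) : y ∈ Ki := by
  have hfin := H.fin
  have : Finite (L ⊓ Ki : AddSubgroup X) :=
    Finite.of_injective (fun z : (L ⊓ Ki : AddSubgroup X) => (⟨z.1, z.2.1⟩ : L))
      (fun a b h => Subtype.ext (congrArg (fun t : L => (t : X)) h))
  obtain ⟨z, hz, hzy⟩ := exists_of_stable (L ⊓ Ki) η (fun t ht => ⟨hL t ht.1, hK t ht.2⟩)
    (fun t ht h0 => hinj t ht.1 h0) (y := η y) ⟨hL y hy, h⟩
  have h0 : z - y = 0 := hinj _ (L.sub_mem hz.1 hy) (by rw [map_sub, hzy, sub_self])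
  rw [← sub_eq_zero.1 h0]
  exact hz.2

end Abs

end Fermat.Agent.S43.L0
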