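/-
Row 37 (S43), block L0 (chief helper165).  `U_q`, `w_q`, `α_*`, `T_ℓ` AT LEVEL `Γ₀(M q)`, generic exponent `n`.

* `al_nm`      : `α (nm u) = u * U (w u)` for every multiplicative `U` with `(U u)(t^q) = ∏_b u(ζ^b t)`;
* `alW_nmW`    : `α^* α_* x = x + U_q (w x)` on the Kummer model;
* `UW_eq_neg_wW` : `α_* (w x) = 0  ⟹  U_q x = - w x`;
* `wW_TW`      : `w T_ℓ = T_ℓ w`;
* `nmW_eq_N1`, `nmW_TW` : `α_* = S36.Norm.N1` and `α_* T_ℓ = T_ℓ α_*`.
`U` is an ARBITRARY operator with the `q`-expansion formula, `UW` an ARBITRARY additive map with `UW (cls u) = cls (U u)`: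
`Ops.Uq.UqOp`, `Ops.U.UOp` at `F₀ = modularFunctionFieldFull (M * q)` are instances (see `L0/Inst.lean`).
-/
import Fermat.Agent.S43.L0.Kinf
import Fermat.Agent.S44.X.Cover.TW.Main
import Fermat.Agent.S36.Norm.Main

set_option autoImplicit false

noncomputable section

namespace Fermat.Agent.S43.L0

open ModularCurve AlgebraicCurve Fermat.Agent.S24 Fermat.Agent.S24.B Fermat.Agent.GAL
  Fermat.Agent.GAL.E Fermat.Agent.C1

variable {M q : ℕ} [NeZero M] [NeZero q] (D : ALData M q) {n : ℕ}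

/-- `U` is the multiplicative operator `U_q`. -/
def IsUq (N q : ℕ) [NeZero q] (U : FN N →* FN N) : Prop :=
  ∀ u : FN N, qExpand Kbar q ((U u : FN N) : LaurentSeries Kbar) =
    ∏ b ∈ Finset.range q, twist (zetaK q ^ b) (u : LaurentSeries Kbar)

/-- `UW` is induced by `U` on the Kummer model. -/
def IsUW {N : ℕ} (U : FN N →* FN N) (n : ℕ) (UW : W N n →+ W N n) : Prop :=
  ∀ u : kum N n, ∃ h : Units.map U (u : (FN N)ˣ) ∈ kum N n, UW (cls u) = cls ⟨_, h⟩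

theorem al_nm {U : FN (M * q) →* FN (M * q)} (hU : IsUq (M * q) q U) (u : FN (M * q)) :
    heckeAlphaBar Kbar M q (D.nm u) = u * U (D.w u) := by
  refine Subtype.ext (qExpand_injective' q ?_)
  rw [coe_heckeAlphaBar, D.qExpand_nm, ← hU]
  exact (map_mul (qExpand Kbar q) _ _).symm

/-- `α^* α_* = 1 + U_q w`. -/
theorem alW_nmW {U : FN (M * q) →* FN (M * q)} (hU : IsUq (M * q) q U)
    {UW : W (M * q) n →+ W (M * q) n} (hUW : IsUW U n UW) (x : W (M * q) n) :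
    D.alW n (D.nmW n x) = x + UW (D.wW n x) := by
  obtain ⟨u, rfl⟩ := cls_surjective x
  have e1 : D.wW n (cls u) = cls ⟨Units.map ((D.w : FN (M * q) →+* FN (M * q)) :
      FN (M * q) →* FN (M * q)) (u : (FN (M * q))ˣ), D.isKum_w n _ u.2⟩ := rfl
  obtain ⟨h, e2⟩ := hUW ⟨Units.map ((D.w : FN (M * q) →+* FN (M * q)) :
      FN (M * q) →* FN (M * q)) (u : (FN (M * q))ˣ), D.isKum_w n _ u.2⟩
  rw [e1, e2, ← cls_mul]
  show cls _ = _
  refine congrArg cls (Subtype.ext (Units.ext ?_))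
  exact al_nm D hU _

/-- `U_q = - w` on the classes killed by `β_* = α_* w`. -/
theorem UW_eq_neg_wW (hq : q.Prime) {U : FN (M * q) →* FN (M * q)} (hU : IsUq (M * q) q U)
    {UW : W (M * q) n →+ W (M * q) n} (hUW : IsUW U n UW) {x : W (M * q) n}
    (hx : D.nmW n (D.wW n x) = 0) : UW x = -D.wW n x := by
  have h := alW_nmW D hU hUW (D.wW n x)
  rw [hx, map_zero, D.wW_wW n hq] at h
  exact (neg_eq_of_add_eq_zero_right h.symm).symm

/-- `w T_ℓ = T_ℓ w`. -/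
theorem wW_TW (hq : q.Prime) (hqM : ¬ q ∣ M) {ℓ : ℕ} [NeZero ℓ] (hℓ : ℓ.Prime)
    (hℓN : ¬ ℓ ∣ M * q) (H : HeckeOp (M * q) ℓ) (x : W (M * q) n) :
    D.wW n (H.TW n x) = H.TW n (D.wW n x) := by
  obtain ⟨u, rfl⟩ := cls_surjective x
  have e1 : ∀ v : kum (M * q) n, D.wW n (cls v) =
      cls ⟨Units.map ((D.w : FN (M * q) →+* FN (M * q)) :
      FN (M * q) →* FN (M * q)) (v : (FN (M * q))ˣ), D.isKum_w n _ v.2⟩ := fun _ => rfl
  rw [H.TW_cls, e1, e1, H.TW_cls]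
  refine congrArg cls (Subtype.ext (Units.ext ?_))
  exact S44.X.Cover.w_T hq hqM hℓ hℓN D H _

/-- the norm of `ALData` is the field norm along `α` -/
theorem nm_eq_normAlpha (hq : q.Prime) (hqM : ¬ q ∣ M) : D.nm = normAlpha M q := by
  obtain ⟨w, hw1, hw2⟩ := exists_w M q hq hqM
  refine MonoidHom.ext fun u => Subtype.ext (qExpand_injective' q ?_)
  have hw : D.w = w := by
    refine AlgHom.ext fun u => ?_
    refine FN_mul_induction hq (P := fun u => D.w u = w u) ?_ ?_ ?_ ?_ ?_ ?_ u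
    · intro x; rw [D.w_al, hw1]
    · intro x; rw [D.w_be, hw2]
    · intro f g hf hg; rw [map_add, map_add, hf, hg]
    · intro f hf; rw [map_neg, map_neg, hf]
    · intro f g hf hg; rw [map_mul, map_mul, hf, hg]
    · intro f hf; rw [map_inv₀, map_inv₀, hf]
  rw [D.qExpand_nm, qExpand_normAlpha M q hq hqM w hw1 hw2, hw]

theorem nmW_eq_N1 (hq : q.Prime) (hqM : ¬ q ∣ M) (x : W (M * q) n) :
    D.nmW n x = S36.Norm.N1 M n q x := by
  obtain ⟨u, rfl⟩ := cls_surjective x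
  rw [S36.Norm.N1_cls]
  show cls _ = _
  refine congrArg cls (Subtype.ext (Units.ext ?_))
  exact DFunLike.congr_fun (nm_eq_normAlpha D hq hqM) _

/-- `α_* T_ℓ = T_ℓ α_*`. -/
theorem nmW_TW (hq : q.Prime) (hqM : ¬ q ∣ M) {ℓ : ℕ} [NeZero ℓ] (hℓ : ℓ.Prime)
    (hℓN : ¬ ℓ ∣ M * q) (H : HeckeOp M ℓ) (H' : HeckeOp (M * q) ℓ) (x : W (M * q) n) :
    D.nmW n (H'.TW n x) = H.TW n (D.nmW n x) := by
  have hℓM : ¬ ℓ ∣ M := fun h => hℓN (h.mul_right _)
  rw [nmW_eq_N1 D hq hqM, nmW_eq_N1 D hq hqM]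
  exact S36.Norm.N1_TW hℓ hℓN (qExpand_heckeF M ℓ hℓ hℓM) (qExpand_heckeF (M * q) ℓ hℓ hℓN) H H' x

end Fermat.Agent.S43.L0

end
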