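/-
Row 37 (S43), block L0 (chief helper165).  THE LEVEL-`Γ₀(M q)` PACKAGE, generic exponent `n` (`q ∤ n`).  SORRY-FREE.

`Z` = the `(𝔪, u)`-part of the Kummer model `W (M q) n` of `J₀(M q)[n]`; all we use is `Hyp D n Z u`:
  `u² = 1`,  `Z` is `G_ℚ`-stable,  `α_* Z = 0` (no `𝔪`-part at level `M`),  `w = -u` on `Z`.
`Y A Z := Z ∩ K_∞`.  For `σ, τ` in the inertia group of `A ∣ q`, `φ` a Frobenius at `A`, `N₀ = σ - 1`:

  `Hyp.mem_Y_iff_isTor`, `Hyp.mem_Y_iff_wW` : `Y = Z ∩ K_∞ = Z ∩ K_0 = Z ∩ Tor`          (K_0 := w K_∞)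
  `Hyp.UW_eq`, `Hyp.wUw_eq`     : `U_q = U_q^t = -w = u` on `Z`                           (U^t := w U w)
  `Hyp.sub_mem_Y`               : `N₀ Z ≤ Y`
  `Hyp.rho_eq_of_mem_Y`         : `N₀ Y = 0`            (hence `N₀² = 0`; on all of `W`: `L0.rho_sub_rho_sub`)
  `Hyp.frob_sub_mem_Y`          : `(φ - u) Z ≤ Y`       (hence `N₀ (φ - U) = N₀ (φ - U^t) = 0`: `Hyp.N_frob_sub`)
  `Hyp.frob_frob_of_mem_Y`      : `φ² = q²` on `Y`
  `frob_N`                      : `φ N₀ = q N₀ φ` on `W`,   from the tame relation `φ σ = σ^q φ`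
  `Hyp.frob_N`                  : `φ N₀ = q u N₀` on `Z`
  `Hyp.Y_rho_dec`, `Y_TW`       : `Y` is stable under the decomposition group and under `T_ℓ` (if `Z` is).
How to get `Hyp`: `hyp_of_eigen` (from a `w`-stable, `G_ℚ`-stable `Z'` with `α_* Z' = 0`, e.g. the `T_ℓ`-only `𝔪`-part,
`Z := {x ∈ Z' | U_q x = u x}`) and `eq_of_iterate_eq_zero` ((U - u)^k x = 0 ⟹ U x = u x, `n` odd).
-/
import Fermat.Agent.S43.L0.Uw

set_option autoImplicit false

noncomputable section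

namespace Fermat.Agent.S43.L0

open ModularCurve AlgebraicCurve Fermat.Agent.S24 Fermat.Agent.S24.B Fermat.Agent.GAL
  Fermat.Agent.GAL.E Fermat.Agent.C1

/-- `K_∞` as a subgroup (any level). -/
def kinf (A : ValuationSubring Kbar) (N n : ℕ) : AddSubgroup (W N n) where
  carrier := {x | IsKinf A x}
  zero_mem' := IsKinf.zero
  add_mem' := fun hx hy => hx.add hy
  neg_mem' := fun hx => hx.neg

theorem mem_kinf {A : ValuationSubring Kbar} {N n : ℕ} {x : W N n} :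
    x ∈ kinf A N n ↔ IsKinf A x := Iff.rfl

theorem IsKinf.zsmul {A : ValuationSubring Kbar} {N n : ℕ} {x : W N n} (hx : IsKinf A x) (k : ℤ) :
    IsKinf A (k • x) :=
  (kinf A N n).zsmul_mem hx k

variable {M q : ℕ} [NeZero M] [NeZero q]

/-- The hypotheses on the `(𝔪, u)`-part `Z` of `W (M q) n`. -/
structure Hyp (D : ALData M q) (n : ℕ) (Z : AddSubgroup (W (M * q) n)) (u : ℤ) : Prop where
  /-- `u = ± 1` -/
  u_mul : u * u = 1
  /-- `Z` is Galois stable -/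
  rho_mem : ∀ (s : GQ) (x : W (M * q) n), x ∈ Z → rho (M * q) n s x ∈ Z
  /-- `Z` is `q`-new -/
  nm : ∀ x ∈ Z, D.nmW n x = 0
  /-- `w = - u` on `Z` -/
  w : ∀ x ∈ Z, D.wW n x = -(u • x)

/-- `Y = Z ∩ K_∞`. -/
def Y (A : ValuationSubring Kbar) {N n : ℕ} (Z : AddSubgroup (W N n)) : AddSubgroup (W N n) :=
  Z ⊓ kinf A N n

theorem mem_Y {A : ValuationSubring Kbar} {N n : ℕ} {Z : AddSubgroup (W N n)} {x : W N n} :
    x ∈ Y A Z ↔ x ∈ Z ∧ IsKinf A x := Iff.rfl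

/-! ### the tame relation on the whole Kummer model -/

section Tame

variable (D : ALData M q) {A : ValuationSubring Kbar} {n : ℕ}

include D in
theorem rho_pow_apply [NeZero n] (hq : q.Prime) (hqM : ¬ q ∣ M) (hA : A.LiesOverPrime q)
    (hqn : ¬ q ∣ n) {σ : GQ} (hσ : σ ∈ A.inertiaSubgroupIn ℚ) (k : ℕ) (x : W (M * q) n) :
    (rho (M * q) n σ ^ k) x = x + k • (rho (M * q) n σ x - x) := by
  induction k with
  | zero => simp
  | succ k ih =>
    have h := rho_sub_rho_sub D hq hqM hA hqn hσ hσ x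
    have e : (rho (M * q) n σ ^ (k + 1)) x = rho (M * q) n σ ((rho (M * q) n σ ^ k) x) := by
      rw [pow_succ']; rfl
    rw [e, ih, map_add, map_nsmul, h, succ_nsmul]
    abel

include D in
/-- `φ N₀ = q N₀ φ`. -/
theorem frob_N [NeZero n] (hq : q.Prime) (hqM : ¬ q ∣ M) (hA : A.LiesOverPrime q)
    (hqn : ¬ q ∣ n) {σ φ : GQ} (hσ : σ ∈ A.inertiaSubgroupIn ℚ)
    (ht : rho (M * q) n φ * rho (M * q) n σ = rho (M * q) n σ ^ q * rho (M * q) n φ)
    (x : W (M * q) n) :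
    rho (M * q) n φ (rho (M * q) n σ x - x) =
      q • (rho (M * q) n σ (rho (M * q) n φ x) - rho (M * q) n φ x) := by
  have h1 : rho (M * q) n φ (rho (M * q) n σ x) =
      (rho (M * q) n σ ^ q) (rho (M * q) n φ x) := DFunLike.congr_fun ht x
  rw [map_sub, h1, rho_pow_apply D hq hqM hA hqn hσ]
  abel

end Tame

namespace Hyp

variable {D : ALData M q} {A : ValuationSubring Kbar} {n : ℕ} {Z : AddSubgroup (W (M * q) n)}
  {u : ℤ} (h : Hyp D n Z u)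

include h

theorem u_smul_u_smul (x : W (M * q) n) : u • u • x = x := by
  rw [smul_smul, h.u_mul, one_smul]

theorem wW_mem {x : W (M * q) n} (hx : x ∈ Z) : D.wW n x ∈ Z := by
  rw [h.w x hx]
  exact Z.neg_mem (Z.zsmul_mem hx u)

theorem isKinf_wW_iff {x : W (M * q) n} (hx : x ∈ Z) : IsKinf A (D.wW n x) ↔ IsKinf A x := by
  rw [h.w x hx]
  constructor
  · intro h1
    have h2 := (IsKinf.zsmul h1 u).neg
    have e : -(u • -(u • x)) = x := by rw [smul_neg, neg_neg, h.u_smul_u_smul]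
    rwa [e] at h2
  · intro h1
    exact (IsKinf.zsmul h1 u).neg

/-- `Z ∩ K_∞ = Z ∩ K_0`. -/
theorem mem_Y_iff_wW {x : W (M * q) n} : x ∈ Y A Z ↔ x ∈ Z ∧ IsKinf A (D.wW n x) := by
  rw [mem_Y]
  exact and_congr_right fun hx => (h.isKinf_wW_iff hx).symm

/-- `Z ∩ K_∞ = Z ∩ Tor`. -/
theorem mem_Y_iff_isTor [NeZero n] (hq : q.Prime) (hA : A.LiesOverPrime q) {x : W (M * q) n} :
    x ∈ Y A Z ↔ x ∈ Z ∧ IsTor D A x := by
  rw [mem_Y]
  refine and_congr_right fun hx => ?_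
  rw [isTor_iff D hq hA, h.isKinf_wW_iff hx, and_self]

/-- `U_q = u` on `Z`. -/
theorem UW_eq (hq : q.Prime) {U : FN (M * q) →* FN (M * q)} (hU : IsUq (M * q) q U)
    {UW : W (M * q) n →+ W (M * q) n} (hUW : IsUW U n UW) {x : W (M * q) n} (hx : x ∈ Z) :
    UW x = u • x := by
  rw [UW_eq_neg_wW D hq hU hUW (h.nm _ (h.wW_mem hx)), h.w x hx, neg_neg]

/-- `U_q = - w` on `Z`. -/
theorem UW_eq_neg_wW (hq : q.Prime) {U : FN (M * q) →* FN (M * q)} (hU : IsUq (M * q) q U)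
    {UW : W (M * q) n →+ W (M * q) n} (hUW : IsUW U n UW) {x : W (M * q) n} (hx : x ∈ Z) :
    UW x = -D.wW n x :=
  L0.UW_eq_neg_wW D hq hU hUW (h.nm _ (h.wW_mem hx))

/-- `U_q^t = w U_q w = u` on `Z`. -/
theorem wUw_eq (hq : q.Prime) {U : FN (M * q) →* FN (M * q)} (hU : IsUq (M * q) q U)
    {UW : W (M * q) n →+ W (M * q) n} (hUW : IsUW U n UW) {x : W (M * q) n} (hx : x ∈ Z) :
    D.wW n (UW (D.wW n x)) = u • x := by
  rw [h.UW_eq hq hU hUW (h.wW_mem hx), map_zsmul, D.wW_wW n hq]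

/-- `N₀ Z ≤ Y`. -/
theorem sub_mem_Y [NeZero n] (hq : q.Prime) (hA : A.LiesOverPrime q) {τ : GQ}
    (hτ : τ ∈ A.inertiaSubgroupIn ℚ) {x : W (M * q) n} (hx : x ∈ Z) :
    rho (M * q) n τ x - x ∈ Y A Z :=
  ⟨Z.sub_mem (h.rho_mem τ x hx) hx, isKinf_rho_sub hq hA τ hτ x⟩

/-- `N₀ Y = 0`. -/
theorem rho_eq_of_mem_Y [NeZero n] (hq : q.Prime) (hqM : ¬ q ∣ M) (hA : A.LiesOverPrime q)
    (hqn : ¬ q ∣ n) {τ : GQ} (hτ : τ ∈ A.inertiaSubgroupIn ℚ) {y : W (M * q) n}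
    (hy : y ∈ Y A Z) : rho (M * q) n τ y = y :=
  rho_of_isTor D hq hqM hA (NeZero.pos n) hqn hτ ((h.mem_Y_iff_isTor hq hA).1 hy).2

/-- `(φ - u) Z ≤ Y`. -/
theorem frob_sub_mem_Y [NeZero n] (hq : q.Prime) (hA : A.LiesOverPrime q) {φ : GQ}
    (hφ : A.IsFrobeniusAt φ q) {x : W (M * q) n} (hx : x ∈ Z) :
    rho (M * q) n φ x - u • x ∈ Y A Z := by
  refine ⟨Z.sub_mem (h.rho_mem φ x hx) (Z.zsmul_mem hx u), ?_⟩
  have h1 := isKinf_frob D hq hA φ hφ x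
  rw [h.nm x hx, map_zero, h.w x hx, map_neg, map_zsmul] at h1
  have h2 := IsKinf.zsmul h1 u
  have e : u • (0 - x - -(u • rho (M * q) n φ x)) = rho (M * q) n φ x - u • x := by
    rw [zero_sub, sub_neg_eq_add, smul_add, h.u_smul_u_smul, smul_neg]
    abel
  rwa [e] at h2

/-- `N₀ (φ - u) = 0` on `Z`. -/
theorem N_frob_sub [NeZero n] (hq : q.Prime) (hqM : ¬ q ∣ M) (hA : A.LiesOverPrime q)
    (hqn : ¬ q ∣ n) {τ φ : GQ} (hτ : τ ∈ A.inertiaSubgroupIn ℚ) (hφ : A.IsFrobeniusAt φ q)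
    {x : W (M * q) n} (hx : x ∈ Z) :
    rho (M * q) n τ (rho (M * q) n φ x - u • x) = rho (M * q) n φ x - u • x :=
  h.rho_eq_of_mem_Y hq hqM hA hqn hτ (h.frob_sub_mem_Y hq hA hφ hx)

/-- `φ² = q²` on `Y`. -/
theorem frob_frob_of_mem_Y [NeZero n] (hq : q.Prime) (hqM : ¬ q ∣ M) (hA : A.LiesOverPrime q)
    (hqn : ¬ q ∣ n) {φ : GQ} (hφ : A.IsFrobeniusAt φ q) {y : W (M * q) n} (hy : y ∈ Y A Z) :
    rho (M * q) n φ (rho (M * q) n φ y) = (q ^ 2) • y :=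
  rho_rho_of_isTor D hq hqM hA (NeZero.pos n) hqn hφ ((h.mem_Y_iff_isTor hq hA).1 hy).2

/-- `N₀ φ = u N₀` on `Z`. -/
theorem N_frob [NeZero n] (hq : q.Prime) (hqM : ¬ q ∣ M) (hA : A.LiesOverPrime q)
    (hqn : ¬ q ∣ n) {τ φ : GQ} (hτ : τ ∈ A.inertiaSubgroupIn ℚ) (hφ : A.IsFrobeniusAt φ q)
    {x : W (M * q) n} (hx : x ∈ Z) :
    rho (M * q) n τ (rho (M * q) n φ x) - rho (M * q) n φ x = u • (rho (M * q) n τ x - x) := by
  have h1 := h.N_frob_sub hq hqM hA hqn hτ hφ hx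
  rw [map_sub, map_zsmul] at h1
  rw [smul_sub]
  have h2 : rho (M * q) n τ (rho (M * q) n φ x) =
      rho (M * q) n φ x - u • x + u • rho (M * q) n τ x := by
    rw [← h1]; abel
  rw [h2]
  abel

/-- `φ N₀ = q u N₀` on `Z`. -/
theorem frob_N [NeZero n] (hq : q.Prime) (hqM : ¬ q ∣ M) (hA : A.LiesOverPrime q)
    (hqn : ¬ q ∣ n) {σ φ : GQ} (hσ : σ ∈ A.inertiaSubgroupIn ℚ) (hφ : A.IsFrobeniusAt φ q)
    (ht : rho (M * q) n φ * rho (M * q) n σ = rho (M * q) n σ ^ q * rho (M * q) n φ)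
    {x : W (M * q) n} (hx : x ∈ Z) :
    rho (M * q) n φ (rho (M * q) n σ x - x) = q • u • (rho (M * q) n σ x - x) := by
  rw [L0.frob_N D hq hqM hA hqn hσ ht, h.N_frob hq hqM hA hqn hσ hφ hx]

/-- `Y` is stable under the decomposition group. -/
theorem Y_rho_dec {s : GQ} (hs : s ∈ A.decompositionSubgroup ℚ) {y : W (M * q) n}
    (hy : y ∈ Y A Z) : rho (M * q) n s y ∈ Y A Z :=
  ⟨h.rho_mem s y hy.1, IsKinf.rho_dec hs hy.2⟩

end Hyp

omit [NeZero q] in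
/-- `Y` is stable under the Hecke operators which preserve `Z`. -/
theorem Y_TW {A : ValuationSubring Kbar} (hq : q.Prime) (hA : A.LiesOverPrime q) {N n ℓ : ℕ}
    [NeZero ℓ] (H : HeckeOp N ℓ) {Z : AddSubgroup (W N n)} (hZ : ∀ x ∈ Z, H.TW n x ∈ Z)
    {y : W N n} (hy : y ∈ Y A Z) : H.TW n y ∈ Y A Z :=
  ⟨hZ y hy.1, IsKinf.TW hq hA H hy.2⟩

/-! ### how to get `Hyp` -/

/-- From the `T_ℓ`-only `𝔪`-part `Z'` to the `(𝔪, u)`-part. -/
theorem hyp_of_eigen (D : ALData M q) {n : ℕ} (hq : q.Prime) {U : FN (M * q) →* FN (M * q)}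
    (hU : IsUq (M * q) q U) {UW : W (M * q) n →+ W (M * q) n} (hUW : IsUW U n UW)
    {Z' Z : AddSubgroup (W (M * q) n)} {u : ℤ} (hu : u * u = 1)
    (hρ : ∀ (s : GQ) (x : W (M * q) n), x ∈ Z' → rho (M * q) n s x ∈ Z')
    (hw : ∀ x ∈ Z', D.wW n x ∈ Z') (hnm : ∀ x ∈ Z', D.nmW n x = 0)
    (hZ : ∀ x, x ∈ Z ↔ x ∈ Z' ∧ UW x = u • x) : Hyp D n Z u where
  u_mul := hu
  rho_mem := by
    intro s x hx
    obtain ⟨hx1, hx2⟩ := (hZ x).1 hx
    refine (hZ _).2 ⟨hρ s x hx1, ?_⟩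
    rw [UW_eq_neg_wW D hq hU hUW (hnm _ (hw _ (hρ s x hx1))), D.wW_rho n hq, ← map_neg,
      ← UW_eq_neg_wW D hq hU hUW (hnm _ (hw _ hx1)), hx2, map_zsmul]
  nm := fun x hx => hnm x ((hZ x).1 hx).1
  w := by
    intro x hx
    obtain ⟨hx1, hx2⟩ := (hZ x).1 hx
    rw [← hx2, UW_eq_neg_wW D hq hU hUW (hnm _ (hw _ hx1)), neg_neg]

/-- An involution `f`, `u = ± 1`, odd exponent: `(f - u)^k x = 0 ⟹ f x = u x`. -/
theorem eq_of_iterate_eq_zero {G : Type*} [AddCommGroup G] {n : ℕ} (hn : n.Coprime 2)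
    (hG : ∀ x : G, n • x = 0) (f : G →+ G) {u : ℤ} (hu : u * u = 1) (x : G)
    (hf : ∀ j : ℕ, f (f ((fun y => f y - u • y)^[j] x)) = (fun y => f y - u • y)^[j] x)
    (k : ℕ) (hk : (fun y => f y - u • y)^[k] x = 0) : f x = u • x := by
  set g : G → G := fun y => f y - u • y with hg
  have h1 : ∀ j : ℕ, g^[j + 1] x = ((-2 * u) ^ j) • g x := by
    intro j
    induction j with
    | zero => simp
    | succ j ih =>
      rw [Function.iterate_succ_apply', ih]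
      have e0 : g^[j + 1] x = g (g^[j] x) := Function.iterate_succ_apply' g j x
      have e1 : g (g (g^[j] x)) = (-2 * u) • g (g^[j] x) := by
        have := hf j
        simp only [hg] at this ⊢
        rw [map_sub, map_zsmul, this, smul_sub, smul_sub, smul_smul, smul_smul, hu,
          mul_assoc, hu]
        simp only [neg_smul, mul_one, one_smul, two_smul, mul_smul]
        abel
      rw [← ih, e0, e1, ← e0, ih, smul_smul, pow_succ']
  have h2 : g x = 0 := by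
    rcases k with _ | k
    · have hx0 : x = 0 := hk
      simp [hg, hx0]
    · have h3 := h1 k
      rw [hk] at h3
      have hcop : IsCoprime ((-2 * u) ^ k) (n : ℤ) := by
        apply IsCoprime.pow_left
        have h2n : IsCoprime (2 : ℤ) (n : ℤ) := by
          have := Nat.isCoprime_iff_coprime.2 hn.symm
          simpa using this
        have hunit : IsUnit (-u) := IsUnit.neg (IsUnit.of_mul_eq_one u hu)
        have e : (-2 * u : ℤ) = 2 * (-u) := by ring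
        rw [e]
        exact (isCoprime_mul_unit_right_left hunit 2 (n : ℤ)).2 h2n
      obtain ⟨a, b, hab⟩ := hcop
      have : g x = (a * (-2 * u) ^ k + b * (n : ℤ)) • g x := by rw [hab, one_smul]
      rw [this, add_smul, mul_smul, ← h3, smul_zero, mul_smul, natCast_zsmul, hG, smul_zero,
        add_zero]
  exact sub_eq_zero.1 h2

end Fermat.Agent.S43.L0

end
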