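/-
Row 37 (S43), block L0 (chief helper165).  BRIDGE to the language of OPS / GLUE (`S48.BB`):
`FB (modularFunctionFieldFull N) = FN N`, `W1 (modularFunctionFieldFull N) n = GAL.E.W N n`, `BB.E.rho = GAL.E.rho` (all `rfl`),
and the operators `U_q` of `Ops/Uq/Contract.lean` (helper33) and `Ops/U/Defs.lean` (helper47) satisfy `IsUq`, `IsUW`.
-/
import Fermat.Agent.S43.L0.Main
import Fermat.Agent.S43.Ops.Uq.Contract
import Fermat.Agent.S43.Ops.U.Defs

set_option autoImplicit false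

noncomputable section

namespace Fermat.Agent.S43.L0

open ModularCurve AlgebraicCurve Fermat.Agent.S24 Fermat.Agent.S24.B Fermat.Agent.GAL

theorem FB_eq (N : ℕ) : S48.BB.FB (modularFunctionFieldFull N) = FN N := rfl

theorem W1_eq (N n : ℕ) : S48.BB.E.W1 (modularFunctionFieldFull N) n = E.W N n := rfl

theorem rho_eq (N n : ℕ) : S48.BB.E.rho (modularFunctionFieldFull N) n = E.rho N n := rfl

variable {N q : ℕ} [NeZero q]

theorem isUq_uqOp (X : Ops.Uq.UqOp (modularFunctionFieldFull N) q) : IsUq N q X.U := X.qExpand_U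

theorem isUW_uqOp (X : Ops.Uq.UqOp (modularFunctionFieldFull N) q) (n : ℕ) (hn : n.Coprime 6) :
    IsUW (N := N) X.U n (X.UW n hn) :=
  fun u => ⟨X.UU_mem_kum hn (u : (FN N)ˣ) u.2, X.UW_cls hn u⟩

theorem isUq_uOp (X : Ops.U.UOp (modularFunctionFieldFull N) q) : IsUq N q X.U := X.qExpand_U

theorem isUW_uOp (X : Ops.U.UOp (modularFunctionFieldFull N) q) (n : ℕ) :
    IsUW (N := N) X.U n (X.UW n) :=
  fun u => ⟨X.UU_mem_kum (u : (FN N)ˣ) u.2, X.UW_cls u⟩

end Fermat.Agent.S43.L0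

end
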