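/-
Row 37 (S43), block L0 (helper23).  THE KEY LEMMA AT LEVEL `Γ₀(M q)`, from the LANDED nodal core (S34 / C1).

`key_C1`  (language of C1: `GAL.E.W (M * q) n`, `C1.ALData`):
    `x ∈ K_∞`, `w x ∈ K_∞`, `τ ∈ I_A`   ⟹   `ρ(τ) x = x`.
`key`     (language of S43: `W1 F₀ n`, `Triv.IsKinf`, `autW w n`, `F₀ = modularFunctionFieldFull N`, `N = M * q` in ANY
           form, e.g. `N = q * M`): the same, for ANY `ℚ̄`-automorphism `w` of `FB F₀` exchanging `f(Q)` and `f(Q^q)`, `f` of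
           level `M`.
Use: on the `m`-part `w x = - U_q x` (OPS-N `UW_eq_neg_wW`) and `U_q K_∞ ⊆ K_∞` (TRIV), so `K_∞ ∩ W_m ⊆ ker (ρ(τ) - 1)`.
-/
import Fermat.Agent.S34.Nodal.Inst.Top.Close
import Fermat.Agent.C1.Mod.Main
import Fermat.Agent.C1.Main
import Fermat.Agent.S43.Triv.Kinf

set_option autoImplicit false

noncomputable section

namespace Fermat.Agent.S43.L0

open ModularCurve AlgebraicCurve Fermat.Agent.S24 Fermat.Agent.S24.B Fermat.Agent.GAL
open Fermat.Agent.GAL.E (GQ)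
open Fermat.Agent.S48.BB

/-- **The key lemma, language of C1.** -/
theorem key_C1 {M q : ℕ} [NeZero M] [NeZero q] (hq : q.Prime) (hqM : ¬ q ∣ M) (D : C1.ALData M q)
    {A : ValuationSubring Kbar} (hA : A.LiesOverPrime q) {n : ℕ} (hn : 0 < n) (hqn : ¬ q ∣ n)
    {x : E.W (M * q) n} (hx : C1.IsKinf A x) (hwx : C1.IsKinf A (D.wW n x))
    (τ : GQ) (hτ : τ ∈ A.inertiaSubgroupIn ℚ) : E.rho (M * q) n τ x = x := by
  have h1 := C1.smul_rho_sub_of_isTor D
    (C1.nod_of_target S34.Nodal.Inst.Top.nodalTarget hq hqM D A hA n hn hqn).1 τ hτ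
    (C1.isTor_of_isKinf D hq hA hx hwx)
  rw [one_nsmul] at h1
  exact sub_eq_zero.1 h1

/-- An automorphism exchanging `α` and `β` is the Atkin-Lehner involution of `C1.ALData`. -/
theorem w_eq_of_swap {M q : ℕ} [NeZero M] [NeZero q] (hq : q.Prime) (D : C1.ALData M q)
    (w : FN (M * q) ≃ₐ[Kbar] FN (M * q))
    (h1 : ∀ f : FN M, w (heckeAlphaBar Kbar M q f) = heckeBetaBar Kbar M q f)
    (h2 : ∀ f : FN M, w (heckeBetaBar Kbar M q f) = heckeAlphaBar Kbar M q f) (u : FN (M * q)) :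
    D.w u = w u := by
  refine C1.FN_mul_induction hq (P := fun u => D.w u = w u) ?_ ?_ ?_ ?_ ?_ ?_ u
  · intro x; rw [D.w_al, h1]
  · intro x; rw [D.w_be, h2]
  · intro f g hf hg; rw [map_add, map_add, hf, hg]
  · intro f hf; rw [map_neg, map_neg, hf]
  · intro f g hf hg; rw [map_mul, map_mul, hf, hg]
  · intro f hf; rw [map_inv₀, map_inv₀, hf]

/-- **The key lemma, language of S43**, level `M * q`. -/
theorem key_mul {M q : ℕ} [NeZero M] [NeZero q] (hq : q.Prime) (hqM : ¬ q ∣ M)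
    (w : FB (modularFunctionFieldFull (M * q)) ≃ₐ[Kbar] FB (modularFunctionFieldFull (M * q)))
    (h1 : ∀ f : FN M, w (heckeAlphaBar Kbar M q f) = heckeBetaBar Kbar M q f)
    (h2 : ∀ f : FN M, w (heckeBetaBar Kbar M q f) = heckeAlphaBar Kbar M q f)
    {A : ValuationSubring Kbar} (hA : A.LiesOverPrime q) {n : ℕ} (hn : 0 < n) (hqn : ¬ q ∣ n)
    {x : E.W1 (modularFunctionFieldFull (M * q)) n} (hx : Triv.IsKinf A x)
    (hwx : Triv.IsKinf A (E.autW w n x))
    (τ : GQ) (hτ : τ ∈ A.inertiaSubgroupIn ℚ) :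
    E.rho (modularFunctionFieldFull (M * q)) n τ x = x := by
  obtain ⟨D⟩ := C1.nonempty_alData M q hq hqM
  have hw : ∀ y : GAL.E.W (M * q) n, D.wW n y = E.autW w n y := by
    intro y
    obtain ⟨u, rfl⟩ := GAL.E.cls_surjective y
    refine congrArg GAL.E.cls (Subtype.ext (Units.ext ?_))
    exact w_eq_of_swap hq D w h1 h2 _
  let x' : GAL.E.W (M * q) n := x
  have hx' : C1.IsKinf A x' := hx
  have hwx' : C1.IsKinf A (D.wW n x') := by
    rw [hw x']
    exact hwx
  exact key_C1 hq hqM D hA hn hqn hx' hwx' τ hτ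

/-- **The key lemma, language of S43**, level `N = M * q` written in any form (e.g. `q * M`); the hypotheses on `w`
are statements on `q`-expansions: `w` maps `f(Q)` to `f(Q^q)` and `f(Q^q)` to `f(Q)` for `f` of level `M`. -/
theorem key {M q N : ℕ} [NeZero M] [NeZero q] (hN : N = M * q) (hq : q.Prime) (hqM : ¬ q ∣ M)
    (w : FB (modularFunctionFieldFull N) ≃ₐ[Kbar] FB (modularFunctionFieldFull N))
    (h1 : ∀ (f : FN M) (y : FB (modularFunctionFieldFull N)),
      (y : LaurentSeries Kbar) = (f : LaurentSeries Kbar) →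
        ((w y : FB (modularFunctionFieldFull N)) : LaurentSeries Kbar) =
          qExpand Kbar q (f : LaurentSeries Kbar))
    (h2 : ∀ (f : FN M) (y : FB (modularFunctionFieldFull N)),
      (y : LaurentSeries Kbar) = qExpand Kbar q (f : LaurentSeries Kbar) →
        ((w y : FB (modularFunctionFieldFull N)) : LaurentSeries Kbar) = (f : LaurentSeries Kbar))
    {A : ValuationSubring Kbar} (hA : A.LiesOverPrime q) {n : ℕ} (hn : 0 < n) (hqn : ¬ q ∣ n)
    {x : E.W1 (modularFunctionFieldFull N) n} (hx : Triv.IsKinf A x)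
    (hwx : Triv.IsKinf A (E.autW w n x))
    (τ : GQ) (hτ : τ ∈ A.inertiaSubgroupIn ℚ) :
    E.rho (modularFunctionFieldFull N) n τ x = x := by
  subst hN
  refine key_mul hq hqM w (fun f => Subtype.ext ?_) (fun f => Subtype.ext ?_) hA hn hqn hx hwx τ hτ
  · rw [h1 f _ (coe_heckeAlphaBar M q f), coe_heckeBetaBar]
  · rw [h2 f _ (coe_heckeBetaBar M q f), coe_heckeAlphaBar]

/-- Consequence: if `w x = - U x` and `U` preserves `K_∞`, then `K_∞ ∋ x` is fixed by inertia.
(`U` any endomorphism; on the `m`-part take `U = U_q`: OPS-N `UW_eq_neg_wW`, TRIV `IsKD.UW`.) -/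
theorem key_U {M q N : ℕ} [NeZero M] [NeZero q] (hN : N = M * q) (hq : q.Prime) (hqM : ¬ q ∣ M)
    (w : FB (modularFunctionFieldFull N) ≃ₐ[Kbar] FB (modularFunctionFieldFull N))
    (h1 : ∀ (f : FN M) (y : FB (modularFunctionFieldFull N)),
      (y : LaurentSeries Kbar) = (f : LaurentSeries Kbar) →
        ((w y : FB (modularFunctionFieldFull N)) : LaurentSeries Kbar) =
          qExpand Kbar q (f : LaurentSeries Kbar))
    (h2 : ∀ (f : FN M) (y : FB (modularFunctionFieldFull N)),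
      (y : LaurentSeries Kbar) = qExpand Kbar q (f : LaurentSeries Kbar) →
        ((w y : FB (modularFunctionFieldFull N)) : LaurentSeries Kbar) = (f : LaurentSeries Kbar))
    {A : ValuationSubring Kbar} (hA : A.LiesOverPrime q) {n : ℕ} (hn : 0 < n) (hqn : ¬ q ∣ n)
    (U : AddMonoid.End (E.W1 (modularFunctionFieldFull N) n))
    (hU : ∀ y, Triv.IsKinf A y → Triv.IsKinf A (U y))
    {x : E.W1 (modularFunctionFieldFull N) n} (hx : Triv.IsKinf A x)
    (hwU : E.autW w n x = - U x)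
    (τ : GQ) (hτ : τ ∈ A.inertiaSubgroupIn ℚ) :
    E.rho (modularFunctionFieldFull N) n τ x = x :=
  key hN hq hqM w h1 h2 hA hn hqn hx (by rw [hwU]; exact (hU x hx).neg) τ hτ

end Fermat.Agent.S43.L0

end
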