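/-
Row 37 (S43), block L0 (chief helper165).  THE LEVEL-`Γ₀(M q)` PACKAGE WITHOUT LOCALISATION AT `U_q`.  SORRY-FREE.

`Z` = the `𝔪`-part (`T_ℓ` only) of `W (M q) n`; all we use is `HypN D n Z`:
   `Z` is `G_ℚ`-stable, `w`-stable, and `α_* Z = 0`.
`Y A Z = Z ∩ K_∞` (`L0/Main.lean`).  `U_q = - w` is an involution of `Z` (not a scalar).  `φ` a Frobenius at `A ∣ q`, `τ, σ ∈ I_A`.

  `HypN.mem_Y_iff_isTor`, `HypN.mem_Y_iff_wW` : `Z ∩ K_∞ = Z ∩ K_0 = Z ∩ Tor`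
  `HypN.UW_eq_neg_wW`, `UW_mem`, `UW_UW`, `UW_surj`, `wUw_eq` : `U_q = -w`, `U_q² = 1`, `U_q^t = w U_q w = U_q` on `Z`
  `HypN.sub_mem_Y`          : `(τ - 1) Z ≤ Y`
  `HypN.rho_eq_of_mem_Y`    : `(τ - 1) Y = 0`
  `HypN.frob_add_mem_Y`, `HypN.frob_sub_mem_Y` : `(φ + w) Z ≤ Y`, `(φ - U_q) Z ≤ Y`
  `HypN.N_frob_sub`         : `(τ - 1)(φ - U_q) = 0` on `Z`
  `HypN.frob_frob_of_mem_Y` : `φ² = q²` on `Y`
  `HypN.frob_N`             : `φ (σ - 1) = - q w (σ - 1)` on `Z`  (tame relation)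
  `HypN.Y_wW`, `HypN.Y_rho_dec`.
-/
import Fermat.Agent.S43.L0.Main

set_option autoImplicit false

noncomputable section

namespace Fermat.Agent.S43.L0

open ModularCurve AlgebraicCurve Fermat.Agent.S24 Fermat.Agent.S24.B Fermat.Agent.GAL
  Fermat.Agent.GAL.E Fermat.Agent.C1

variable {M q : ℕ} [NeZero M] [NeZero q]

/-- The hypotheses on the `𝔪`-part `Z` of `W (M q) n`. -/
structure HypN (D : ALData M q) (n : ℕ) (Z : AddSubgroup (W (M * q) n)) : Prop where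
  /-- `Z` is Galois stable -/
  rho_mem : ∀ (s : GQ) (x : W (M * q) n), x ∈ Z → rho (M * q) n s x ∈ Z
  /-- `Z` is stable under `w` -/
  w_mem : ∀ x ∈ Z, D.wW n x ∈ Z
  /-- `Z` is `q`-new -/
  nm : ∀ x ∈ Z, D.nmW n x = 0

namespace HypN

variable {D : ALData M q} {A : ValuationSubring Kbar} {n : ℕ} {Z : AddSubgroup (W (M * q) n)}
  (h : HypN D n Z)

include h

/-- `Z ∩ K_∞ = Z ∩ Tor`. -/
theorem mem_Y_iff_isTor [NeZero n] (hq : q.Prime) (hA : A.LiesOverPrime q) {φ : GQ}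
    (hφ : A.IsFrobeniusAt φ q) {x : W (M * q) n} : x ∈ Y A Z ↔ x ∈ Z ∧ IsTor D A x := by
  rw [mem_Y]
  refine and_congr_right fun hx => ⟨fun hk => ?_, fun ht => IsTor.isKinf D ht⟩
  exact isTor_of_isKinf_nmW D hq hA hφ hk (h.nm x hx)

/-- `Z ∩ K_∞ = Z ∩ K_0`. -/
theorem mem_Y_iff_wW [NeZero n] (hq : q.Prime) (hA : A.LiesOverPrime q) {φ : GQ}
    (hφ : A.IsFrobeniusAt φ q) {x : W (M * q) n} :
    x ∈ Y A Z ↔ x ∈ Z ∧ IsKinf A (D.wW n x) := by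
  rw [mem_Y]
  refine and_congr_right fun hx => ⟨fun hk => ?_, fun hk => ?_⟩
  · exact isKinf_wW_of_nmW D hq hA hφ hk (h.nm x hx)
  · have := isKinf_wW_of_nmW D hq hA hφ hk (h.nm _ (h.w_mem x hx))
    rwa [D.wW_wW n hq] at this

theorem Y_wW [NeZero n] (hq : q.Prime) (hA : A.LiesOverPrime q) {φ : GQ}
    (hφ : A.IsFrobeniusAt φ q) {y : W (M * q) n} (hy : y ∈ Y A Z) : D.wW n y ∈ Y A Z :=
  ⟨h.w_mem y hy.1, ((h.mem_Y_iff_wW hq hA hφ).1 hy).2⟩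

theorem Y_rho_dec {s : GQ} (hs : s ∈ A.decompositionSubgroup ℚ) {y : W (M * q) n}
    (hy : y ∈ Y A Z) : rho (M * q) n s y ∈ Y A Z :=
  ⟨h.rho_mem s y hy.1, IsKinf.rho_dec hs hy.2⟩

/-- `U_q = - w` on `Z`. -/
theorem UW_eq_neg_wW (hq : q.Prime) {U : FN (M * q) →* FN (M * q)} (hU : IsUq (M * q) q U)
    {UW : W (M * q) n →+ W (M * q) n} (hUW : IsUW U n UW) {x : W (M * q) n} (hx : x ∈ Z) :
    UW x = -D.wW n x :=
  L0.UW_eq_neg_wW D hq hU hUW (h.nm _ (h.w_mem x hx))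

theorem UW_mem (hq : q.Prime) {U : FN (M * q) →* FN (M * q)} (hU : IsUq (M * q) q U)
    {UW : W (M * q) n →+ W (M * q) n} (hUW : IsUW U n UW) {x : W (M * q) n} (hx : x ∈ Z) :
    UW x ∈ Z := by
  rw [h.UW_eq_neg_wW hq hU hUW hx]
  exact Z.neg_mem (h.w_mem x hx)

/-- `U_q² = 1` on `Z`. -/
theorem UW_UW (hq : q.Prime) {U : FN (M * q) →* FN (M * q)} (hU : IsUq (M * q) q U)
    {UW : W (M * q) n →+ W (M * q) n} (hUW : IsUW U n UW) {x : W (M * q) n} (hx : x ∈ Z) :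
    UW (UW x) = x := by
  rw [h.UW_eq_neg_wW hq hU hUW (h.UW_mem hq hU hUW hx), h.UW_eq_neg_wW hq hU hUW hx]
  have e : D.wW n (-D.wW n x) = -D.wW n (D.wW n x) := map_neg (D.wW n) _
  rw [e, D.wW_wW n hq, neg_neg]

theorem UW_surj (hq : q.Prime) {U : FN (M * q) →* FN (M * q)} (hU : IsUq (M * q) q U)
    {UW : W (M * q) n →+ W (M * q) n} (hUW : IsUW U n UW) {y : W (M * q) n} (hy : y ∈ Z) :
    ∃ z ∈ Z, UW z = y :=
  ⟨UW y, h.UW_mem hq hU hUW hy, h.UW_UW hq hU hUW hy⟩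

/-- `U_q^t = w U_q w = U_q` on `Z`. -/
theorem wUw_eq (hq : q.Prime) {U : FN (M * q) →* FN (M * q)} (hU : IsUq (M * q) q U)
    {UW : W (M * q) n →+ W (M * q) n} (hUW : IsUW U n UW) {x : W (M * q) n} (hx : x ∈ Z) :
    D.wW n (UW (D.wW n x)) = UW x := by
  rw [h.UW_eq_neg_wW hq hU hUW (h.w_mem x hx), h.UW_eq_neg_wW hq hU hUW hx, D.wW_wW n hq]
  exact map_neg (D.wW n) x

/-- `(τ - 1) Z ≤ Y`. -/
theorem sub_mem_Y [NeZero n] (hq : q.Prime) (hA : A.LiesOverPrime q) {τ : GQ}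
    (hτ : τ ∈ A.inertiaSubgroupIn ℚ) {x : W (M * q) n} (hx : x ∈ Z) :
    rho (M * q) n τ x - x ∈ Y A Z :=
  ⟨Z.sub_mem (h.rho_mem τ x hx) hx, isKinf_rho_sub hq hA τ hτ x⟩

/-- `(τ - 1) Y = 0`. -/
theorem rho_eq_of_mem_Y [NeZero n] (hq : q.Prime) (hqM : ¬ q ∣ M) (hA : A.LiesOverPrime q)
    (hqn : ¬ q ∣ n) {φ : GQ} (hφ : A.IsFrobeniusAt φ q) {τ : GQ}
    (hτ : τ ∈ A.inertiaSubgroupIn ℚ) {y : W (M * q) n} (hy : y ∈ Y A Z) :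
    rho (M * q) n τ y = y :=
  rho_of_isTor D hq hqM hA (NeZero.pos n) hqn hτ ((h.mem_Y_iff_isTor hq hA hφ).1 hy).2

/-- `(φ + w) Z ≤ Y`. -/
theorem frob_add_mem_Y [NeZero n] (hq : q.Prime) (hA : A.LiesOverPrime q) {φ : GQ}
    (hφ : A.IsFrobeniusAt φ q) {x : W (M * q) n} (hx : x ∈ Z) :
    rho (M * q) n φ x + D.wW n x ∈ Y A Z := by
  refine ⟨Z.add_mem (h.rho_mem φ x hx) (h.w_mem x hx), ?_⟩
  have h1 := isKinf_frob D hq hA φ hφ (D.wW n x)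
  rw [h.nm _ (h.w_mem x hx), map_zero, D.wW_wW n hq] at h1
  have e : rho (M * q) n φ x + D.wW n x = -(0 - D.wW n x - rho (M * q) n φ x) := by abel
  rw [e]
  exact h1.neg

/-- `(φ - U_q) Z ≤ Y`. -/
theorem frob_sub_mem_Y [NeZero n] (hq : q.Prime) (hA : A.LiesOverPrime q) {φ : GQ}
    (hφ : A.IsFrobeniusAt φ q) {U : FN (M * q) →* FN (M * q)} (hU : IsUq (M * q) q U)
    {UW : W (M * q) n →+ W (M * q) n} (hUW : IsUW U n UW) {x : W (M * q) n} (hx : x ∈ Z) :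
    rho (M * q) n φ x - UW x ∈ Y A Z := by
  rw [h.UW_eq_neg_wW hq hU hUW hx, sub_neg_eq_add]
  exact h.frob_add_mem_Y hq hA hφ hx

/-- `(τ - 1)(φ - U_q) = 0` on `Z`. -/
theorem N_frob_sub [NeZero n] (hq : q.Prime) (hqM : ¬ q ∣ M) (hA : A.LiesOverPrime q)
    (hqn : ¬ q ∣ n) {τ φ : GQ} (hτ : τ ∈ A.inertiaSubgroupIn ℚ) (hφ : A.IsFrobeniusAt φ q)
    {U : FN (M * q) →* FN (M * q)} (hU : IsUq (M * q) q U)
    {UW : W (M * q) n →+ W (M * q) n} (hUW : IsUW U n UW) {x : W (M * q) n} (hx : x ∈ Z) :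
    rho (M * q) n τ (rho (M * q) n φ x - UW x) = rho (M * q) n φ x - UW x :=
  h.rho_eq_of_mem_Y hq hqM hA hqn hφ hτ (h.frob_sub_mem_Y hq hA hφ hU hUW hx)

/-- `φ² = q²` on `Y`. -/
theorem frob_frob_of_mem_Y [NeZero n] (hq : q.Prime) (hqM : ¬ q ∣ M) (hA : A.LiesOverPrime q)
    (hqn : ¬ q ∣ n) {φ : GQ} (hφ : A.IsFrobeniusAt φ q) {y : W (M * q) n} (hy : y ∈ Y A Z) :
    rho (M * q) n φ (rho (M * q) n φ y) = (q ^ 2) • y :=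
  rho_rho_of_isTor D hq hqM hA (NeZero.pos n) hqn hφ ((h.mem_Y_iff_isTor hq hA hφ).1 hy).2

/-- `(τ - 1) φ = - w (τ - 1)` on `Z`. -/
theorem N_frob [NeZero n] (hq : q.Prime) (hqM : ¬ q ∣ M) (hA : A.LiesOverPrime q)
    (hqn : ¬ q ∣ n) {τ φ : GQ} (hτ : τ ∈ A.inertiaSubgroupIn ℚ) (hφ : A.IsFrobeniusAt φ q)
    {x : W (M * q) n} (hx : x ∈ Z) :
    rho (M * q) n τ (rho (M * q) n φ x) - rho (M * q) n φ x =
      -D.wW n (rho (M * q) n τ x - x) := by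
  have h1 := h.rho_eq_of_mem_Y hq hqM hA hqn hφ hτ (h.frob_add_mem_Y hq hA hφ hx)
  rw [map_add, ← D.wW_rho n hq] at h1
  have e : D.wW n (rho (M * q) n τ x - x) = D.wW n (rho (M * q) n τ x) - D.wW n x :=
    map_sub (D.wW n) _ _
  rw [e]
  have h2 : rho (M * q) n τ (rho (M * q) n φ x) =
      rho (M * q) n φ x + D.wW n x - D.wW n (rho (M * q) n τ x) := by
    rw [← h1]; abel
  rw [h2]
  abel

/-- `φ (σ - 1) = - q w (σ - 1)` on `Z`. -/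
theorem frob_N [NeZero n] (hq : q.Prime) (hqM : ¬ q ∣ M) (hA : A.LiesOverPrime q)
    (hqn : ¬ q ∣ n) {σ φ : GQ} (hσ : σ ∈ A.inertiaSubgroupIn ℚ) (hφ : A.IsFrobeniusAt φ q)
    (ht : rho (M * q) n φ * rho (M * q) n σ = rho (M * q) n σ ^ q * rho (M * q) n φ)
    {x : W (M * q) n} (hx : x ∈ Z) :
    rho (M * q) n φ (rho (M * q) n σ x - x) = q • -D.wW n (rho (M * q) n σ x - x) := by
  rw [L0.frob_N D hq hqM hA hqn hσ ht, h.N_frob hq hqM hA hqn hσ hφ hx]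

end HypN

end Fermat.Agent.S43.L0

end
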