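/-
Row 37 (S43), block L0 (helper253).  THE ATKIN-LEHNER INVOLUTION `w₀ = w_q` AT LEVEL `Γ₀(q M)`.

`F0 = modularFunctionFieldFull (q * M)`; `w0 hc = Ops.w0 hc` (helper297, `Ops/W/Zero.lean`).
* `coe_w0_of_coe_eq`, `coe_w0_of_coe_eq'` : `w0` exchanges `f(Q)` and `f(Q^q)`, `f` of level `M` (hypotheses of `L0.key`);
* `coe_wG` : the matrix, in the form used by `Ops.New.UW_add_wW`.
-/
import Fermat.Agent.S43.Ops.W.Zero
import Fermat.Agent.S43.Ops.New.Main
import Fermat.Agent.S43.Ops.U.Norm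

set_option autoImplicit false
set_option linter.unusedSectionVars false

noncomputable section

namespace Fermat.Agent.S43.L0

open ModularCurve UpperHalfPlane CongruenceSubgroup
open Fermat.Agent.S24 Fermat.Agent.GAL.Mult Fermat.Agent.S48.A Fermat.Agent.S48.BB
open Fermat.Agent.S48.BB.U Fermat.Agent.S48.BB.T Fermat.Agent.S43.Ops.Rel Fermat.Agent.S43.Ops
open scoped MatrixGroups

/-- shortcut instance (the generic search times out) -/
local instance instDMAW0 : DistribMulAction GL(2, ℝ)⁺ MM := instActionMM.toDistribMulAction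

/-- shortcut instance (the generic search times out) -/
local instance instMAW0 : MulAction GL(2, ℝ)⁺ MM := instDMAW0.toMulAction

/-- shortcut instance (the generic search times out) -/
local instance instSAW0 : SemigroupAction GL(2, ℝ)⁺ MM := instMAW0.toSemigroupAction

variable {q M : ℕ} [NeZero q] [NeZero M]

/-- the matrix of `wG`, in the form of `Ops.New.UW_add_wW` (`z = t = 1`). -/
theorem coe_wG (hc : Nat.Coprime q M) :
    (((wG hc : GL(2, ℝ)⁺) : GL (Fin 2) ℝ) : Matrix (Fin 2) (Fin 2) ℝ) =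
      !![(q * (wx q M : ℤ) : ℝ), (wy q M : ℤ); q * M * ((1 : ℤ) : ℝ), q * ((1 : ℤ) : ℝ)] := by
  rw [wG, coe_glI, wMat]
  ext i j
  fin_cases i <;> fin_cases j <;> simp

theorem wxy' (hc : Nat.Coprime q M) : (q : ℤ) * wx q M * 1 - M * wy q M * 1 = 1 := by
  have := wxy hc
  linarith

/-- `(x, y; M, q) ∈ Γ₀(M)`. -/
def g0 (hc : Nat.Coprime q M) : SL(2, ℤ) :=
  ⟨!![wx q M, wy q M; (M : ℤ), (q : ℤ)], by
    rw [Matrix.det_fin_two_of]
    linarith [wxy hc]⟩

theorem g0_mem (hc : Nat.Coprime q M) : g0 hc ∈ Gamma0 M := by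
  rw [Gamma0_mem]
  show (((M : ℤ) : ℤ) : ZMod M) = 0
  simp

/-- `wMat = (x, y; M, q) (q, 0; 0, 1)`. -/
theorem wG_eq (hc : Nat.Coprime q M) : wG hc * sl 1 = sl (g0 hc) * Ops.U.bU q := by
  rw [map_one, mul_one]
  apply Subtype.ext
  apply Units.ext
  rw [wG, coe_glI]
  show _ = (((sl (g0 hc) : GL(2, ℝ)⁺) : GL (Fin 2) ℝ) : Matrix (Fin 2) (Fin 2) ℝ) *
    ((ModularForm.heckeDiagMatrix q : GL (Fin 2) ℝ) : Matrix (Fin 2) (Fin 2) ℝ)
  rw [coe_sl_val, ModularForm.val_heckeDiagMatrix (NeZero.ne q), wMat, g0]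
  ext i j
  fin_cases i <;> fin_cases j <;> simp [Matrix.mul_apply, Fin.sum_univ_two, mul_comm]

/-- **`w0` maps `f(Q)` to `f(Q^q)`**, `f` of level `M`. -/
theorem coe_w0_alphaB (hc : Nat.Coprime q M) (f : FB (modularFunctionFieldFull M)) :
    ((w0 hc (alphaB (New.full_le q M) f) : FB (modularFunctionFieldFull (q * M))) :
      LaurentSeries Kbar) = qExpand Kbar q (f : LaurentSeries Kbar) := by
  apply ModularCurve.qExpand_injective (R := Kbar) (q * M * q)
  have h1 := smul_compLL (isIntLevel_wG hc) (Ops.U.isIntLevel_bU (rfl : q * M * q = q * M * q)) 1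
    (g0 hc) (wG_eq hc) (Psi (New.isLvl_full_up q M) f)
  rw [inv_one, one_smul, smul_Psi_of_mem (New.isLvl_full_up q M) _ (inv_mem (g0_mem hc))] at h1
  rw [qExpand_w0, Psi_alphaB (New.isLvl_full_up q M) (hL0 q M), h1,
    texpLL_compLL_diag (New.isLvl_full_up q M) rfl _ (Ops.U.coe_bU q) f,
    Main_qExpand_qExpand, Main_qExpand_qExpand]
  exact Main_qExpand_congr (by ring) _

theorem coe_w0_of_coe_eq (hc : Nat.Coprime q M) (f : FB (modularFunctionFieldFull M))
    (y : FB (modularFunctionFieldFull (q * M)))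
    (hy : (y : LaurentSeries Kbar) = (f : LaurentSeries Kbar)) :
    ((w0 hc y : FB (modularFunctionFieldFull (q * M))) : LaurentSeries Kbar) =
      qExpand Kbar q (f : LaurentSeries Kbar) := by
  have : y = alphaB (New.full_le q M) f := Subtype.ext (by rw [hy, coe_alphaB])
  rw [this, coe_w0_alphaB]

theorem coe_w0_of_coe_eq' (hc : Nat.Coprime q M) (f : FB (modularFunctionFieldFull M))
    (y : FB (modularFunctionFieldFull (q * M)))
    (hy : (y : LaurentSeries Kbar) = qExpand Kbar q (f : LaurentSeries Kbar)) :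
    ((w0 hc y : FB (modularFunctionFieldFull (q * M))) : LaurentSeries Kbar) =
      (f : LaurentSeries Kbar) := by
  have : y = w0 hc (alphaB (New.full_le q M) f) := Subtype.ext (by rw [hy, coe_w0_alphaB])
  rw [this, w0_w0, coe_alphaB]

end Fermat.Agent.S43.L0

end
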